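import Fermat.Agent.S11.KummerFiltration

open NumberField

namespace Fermat.Agent.S10

set_option maxHeartbeats 4000000 in
theorem kummerLemma_thirteen (K : Type*) [Field K] [NumberField K]
    [IsCyclotomicExtension {13} ℚ K] : Fermat.Agent.S11.KummerLemma 13 K := by
  have : Fact (Nat.Prime 13) := ⟨by norm_num⟩
  have hζ := IsCyclotomicExtension.zeta_spec 13 ℚ K
  set z := hζ.toInteger with hz
  have hsum : 1 + z + z ^ 2 + z ^ 3 + z ^ 4 + z ^ 5 + z ^ 6 + z ^ 7 + z ^ 8 + z ^ 9 + z ^ 10 + z ^ 11 + z ^ 12 = 0 := by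
    have h := hζ.toInteger_isPrimitiveRoot.geom_sum_eq_zero (by norm_num : 1 < 13)
    simpa [Finset.sum_range_succ] using h
  let e0 : (𝓞 K)ˣ := ⟨z, z ^ 12, by linear_combination (z - 1) * hsum,
    by linear_combination (z - 1) * hsum⟩
  let e1 : (𝓞 K)ˣ := ⟨(1) + (1) * z ^ 2 + (1) * z ^ 4 + (1) * z ^ 6 + (1) * z ^ 7 + (1) * z ^ 9 + (1) * z ^ 11,
    (1) * z ^ 6 + (1) * z ^ 7,
    by linear_combination ((-1) + (1) * z + (1) * z ^ 6) * hsum,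
    by linear_combination ((-1) + (1) * z + (1) * z ^ 6) * hsum⟩
  let e2 : (𝓞 K)ˣ := ⟨(1) + (1) * z ^ 2 + (1) * z ^ 4 + (1) * z ^ 5 + (2) * z ^ 6 + (2) * z ^ 7 + (1) * z ^ 8 + (1) * z ^ 9 + (1) * z ^ 11,
    (2) + (-1) * z ^ 2 + (2) * z ^ 3 + (1) * z ^ 4 + (-2) * z ^ 5 + (2) * z ^ 6 + (2) * z ^ 7 + (-2) * z ^ 8 + (1) * z ^ 9 + (2) * z ^ 10 + (-1) * z ^ 11,
    by linear_combination ((1) + (-1) * z + (1) * z ^ 2 + (1) * z ^ 3 + (4) * z ^ 6 + (-1) * z ^ 7 + (-2) * z ^ 8 + (3) * z ^ 9 + (-1) * z ^ 10) * hsum,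
    by linear_combination ((1) + (-1) * z + (1) * z ^ 2 + (1) * z ^ 3 + (4) * z ^ 6 + (-1) * z ^ 7 + (-2) * z ^ 8 + (3) * z ^ 9 + (-1) * z ^ 10) * hsum⟩
  let e3 : (𝓞 K)ˣ := ⟨(1) + (3) * z ^ 2 + (-2) * z ^ 3 + (3) * z ^ 4 + (1) * z ^ 6 + (1) * z ^ 7 + (3) * z ^ 9 + (-2) * z ^ 10 + (3) * z ^ 11,
    (2) + (-4) * z ^ 2 + (-6) * z ^ 3 + (-4) * z ^ 4 + (3) * z ^ 6 + (3) * z ^ 7 + (-4) * z ^ 9 + (-6) * z ^ 10 + (-4) * z ^ 11,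
    by linear_combination ((1) + (-1) * z + (2) * z ^ 2 + (-12) * z ^ 3 + (3) * z ^ 6 + (2) * z ^ 7 + (-2) * z ^ 8 + (2) * z ^ 9 + (-12) * z ^ 10) * hsum,
    by linear_combination ((1) + (-1) * z + (2) * z ^ 2 + (-12) * z ^ 3 + (3) * z ^ 6 + (2) * z ^ 7 + (-2) * z ^ 8 + (2) * z ^ 9 + (-12) * z ^ 10) * hsum⟩
  let e4 : (𝓞 K)ˣ := ⟨(4) + (-10) * z ^ 2 + (-24) * z ^ 3 + (-38) * z ^ 4 + (-49) * z ^ 5 + (-55) * z ^ 6 + (-55) * z ^ 7 + (-49) * z ^ 8 + (-38) * z ^ 9 + (-24) * z ^ 10 + (-10) * z ^ 11,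
    (-7) + (4) * z ^ 2 + (-6) * z ^ 3 + (-3) * z ^ 4 + (4) * z ^ 5 + (-4) * z ^ 6 + (-4) * z ^ 7 + (4) * z ^ 8 + (-3) * z ^ 9 + (-6) * z ^ 10 + (4) * z ^ 11,
    by linear_combination ((-29) + (29) * z + (86) * z ^ 2 + (58) * z ^ 3 + (70) * z ^ 4 + (109) * z ^ 5 + (68) * z ^ 6 + (42) * z ^ 7 + (58) * z ^ 8 + (4) * z ^ 9 + (-40) * z ^ 10) * hsum,
    by linear_combination ((-29) + (29) * z + (86) * z ^ 2 + (58) * z ^ 3 + (70) * z ^ 4 + (109) * z ^ 5 + (68) * z ^ 6 + (42) * z ^ 7 + (58) * z ^ 8 + (4) * z ^ 9 + (-40) * z ^ 10) * hsum⟩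
  let e5 : (𝓞 K)ˣ := ⟨(-2) + (29) * z ^ 2 + (60) * z ^ 3 + (106) * z ^ 4 + (141) * z ^ 5 + (165) * z ^ 6 + (165) * z ^ 7 + (141) * z ^ 8 + (106) * z ^ 9 + (60) * z ^ 10 + (29) * z ^ 11,
    (-143) + (-81) * z ^ 2 + (-112) * z ^ 3 + (24) * z ^ 4 + (-141) * z ^ 5 + (-35) * z ^ 6 + (-35) * z ^ 7 + (-141) * z ^ 8 + (24) * z ^ 9 + (-112) * z ^ 10 + (-81) * z ^ 11,
    by linear_combination ((285) + (-285) * z + (-3985) * z ^ 2 + (-4371) * z ^ 3 + (-9199) * z ^ 4 + (-10434) * z ^ 5 + (-10146) * z ^ 6 + (-11332) * z ^ 7 + (-6502) * z ^ 8 + (-5759) * z ^ 9 + (-2349) * z ^ 10) * hsum,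
    by linear_combination ((285) + (-285) * z + (-3985) * z ^ 2 + (-4371) * z ^ 3 + (-9199) * z ^ 4 + (-10434) * z ^ 5 + (-10146) * z ^ 6 + (-11332) * z ^ 7 + (-6502) * z ^ 8 + (-5759) * z ^ 9 + (-2349) * z ^ 10) * hsum⟩
  refine Fermat.Agent.S11.kummerLemma_of_filtration (by norm_num) hζ 6 (by norm_num)
    ![e0, e1, e2, e3, e4, e5] ![1, 2, 4, 6, 8, 10] ?_ ?_ ?_
    ![1, -6, -2, -2, 3, -1] ![1, -5, -4, -2, 4, -2] ?_ ?_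
  · unfold StrictMono; decide
  · decide
  · decide
  · decide
  · intro i
    fin_cases i
    · show (z - 1) ^ (1 + 1) ∣ z - ((1 : ℤ) : 𝓞 K) * (1 + ((1 : ℤ) : 𝓞 K) * (z - 1) ^ 1)
      exact ⟨0, by push_cast; ring⟩
    · show (z - 1) ^ (2 + 1) ∣ ((1) + (1) * z ^ 2 + (1) * z ^ 4 + (1) * z ^ 6 + (1) * z ^ 7 + (1) * z ^ 9 + (1) * z ^ 11) -
        ((-6 : ℤ) : 𝓞 K) * (1 + ((-5 : ℤ) : 𝓞 K) * (z - 1) ^ 2)
      exact ⟨(31) + (30) * z + (27) * z ^ 2 + (23) * z ^ 3 + (18) * z ^ 4 + (13) * z ^ 5 + (8) * z ^ 6 + (3) * z ^ 7 + (-1) * z ^ 8 + (-4) * z ^ 9 + (-5) * z ^ 10 + (-4) * z ^ 11,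
        by push_cast; linear_combination ((8) + (-11) * z + (4) * z ^ 2) * hsum⟩
    · show (z - 1) ^ (4 + 1) ∣ ((1) + (1) * z ^ 2 + (1) * z ^ 4 + (1) * z ^ 5 + (2) * z ^ 6 + (2) * z ^ 7 + (1) * z ^ 8 + (1) * z ^ 9 + (1) * z ^ 11) -
        ((-2 : ℤ) : 𝓞 K) * (1 + ((-4 : ℤ) : 𝓞 K) * (z - 1) ^ 4)
      exact ⟨(11) + (12) * z + (10) * z ^ 2 + (5) * z ^ 3 + (-2) * z ^ 4 + (-9) * z ^ 5 + (-14) * z ^ 6 + (-16) * z ^ 7 + (-15) * z ^ 8 + (-12) * z ^ 9 + (-8) * z ^ 10 + (-4) * z ^ 11,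
        by push_cast; linear_combination ((6) + (-17) * z + (24) * z ^ 2 + (-16) * z ^ 3 + (4) * z ^ 4) * hsum⟩
    · show (z - 1) ^ (6 + 1) ∣ ((1) + (3) * z ^ 2 + (-2) * z ^ 3 + (3) * z ^ 4 + (1) * z ^ 6 + (1) * z ^ 7 + (3) * z ^ 9 + (-2) * z ^ 10 + (3) * z ^ 11) -
        ((-2 : ℤ) : 𝓞 K) * (1 + ((-2 : ℤ) : 𝓞 K) * (z - 1) ^ 6)
      exact ⟨(6) + (-3) * z + (-21) * z ^ 2 + (-44) * z ^ 3 + (-67) * z ^ 4 + (-85) * z ^ 5 + (-94) * z ^ 6 + (-92) * z ^ 7 + (-79) * z ^ 8 + (-58) * z ^ 9 + (-34) * z ^ 10 + (-13) * z ^ 11,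
        by push_cast; linear_combination ((5) + (-26) * z + (90) * z ^ 2 + (-161) * z ^ 3 + (150) * z ^ 4 + (-70) * z ^ 5 + (13) * z ^ 6) * hsum⟩
    · show (z - 1) ^ (8 + 1) ∣ ((4) + (-10) * z ^ 2 + (-24) * z ^ 3 + (-38) * z ^ 4 + (-49) * z ^ 5 + (-55) * z ^ 6 + (-55) * z ^ 7 + (-49) * z ^ 8 + (-38) * z ^ 9 + (-24) * z ^ 10 + (-10) * z ^ 11) -
        ((3 : ℤ) : 𝓞 K) * (1 + ((4 : ℤ) : 𝓞 K) * (z - 1) ^ 8)
      exact ⟨(3794) + (11777) * z + (22132) * z ^ 2 + (32487) * z ^ 3 + (40470) * z ^ 4 + (44252) * z ^ 5 + (42966) * z ^ 6 + (36906) * z ^ 7 + (27460) * z ^ 8 + (16792) * z ^ 9 + (7346) * z ^ 10 + (1286) * z ^ 11,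
        by push_cast; linear_combination ((3783) + (-26056) * z + (74650) * z ^ 2 + (-113154) * z ^ 3 + (93514) * z ^ 4 + (-35790) * z ^ 5 + (-1202) * z ^ 6 + (5514) * z ^ 7 + (-1286) * z ^ 8) * hsum⟩
    · show (z - 1) ^ (10 + 1) ∣ ((-2) + (29) * z ^ 2 + (60) * z ^ 3 + (106) * z ^ 4 + (141) * z ^ 5 + (165) * z ^ 6 + (165) * z ^ 7 + (141) * z ^ 8 + (106) * z ^ 9 + (60) * z ^ 10 + (29) * z ^ 11) -
        ((-1 : ℤ) : 𝓞 K) * (1 + ((-2 : ℤ) : 𝓞 K) * (z - 1) ^ 10)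
      exact ⟨(102252) + (234894) * z + (367536) * z ^ 2 + (469786) * z ^ 3 + (518219) * z ^ 4 + (501744) * z ^ 5 + (424141) * z ^ 6 + (303190) * z ^ 7 + (166596) * z ^ 8 + (45645) * z ^ 9 + (-31958) * z ^ 10 + (-48433) * z ^ 11,
        by push_cast; linear_combination ((102249) + (-992107) * z + (4297359) * z ^ 2 + (-10932721) * z ^ 3 + (18075609) * z ^ 4 + (-20279023) * z ^ 5 + (15626967) * z ^ 6 + (-8164888) * z ^ 7 + (2767437) * z ^ 8 + (-549238) * z ^ 9 + (48433) * z ^ 10) * hsum⟩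

end Fermat.Agent.S10
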