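import Fermat.Agent.S11.KummerFiltration

open NumberField

namespace Fermat.Agent.S10

theorem kummerLemma_five (K : Type*) [Field K] [NumberField K]
    [IsCyclotomicExtension {5} ℚ K] : Fermat.Agent.S11.KummerLemma 5 K := by
  have : Fact (Nat.Prime 5) := ⟨by norm_num⟩
  have hζ := IsCyclotomicExtension.zeta_spec 5 ℚ K
  set z := hζ.toInteger with hz
  have hsum : 1 + z + z ^ 2 + z ^ 3 + z ^ 4 = 0 := by
    have h := hζ.toInteger_isPrimitiveRoot.geom_sum_eq_zero (by norm_num : 1 < 5)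
    simpa [Finset.sum_range_succ] using h
  let e0 : (𝓞 K)ˣ := ⟨z, z ^ 4, by linear_combination (z - 1) * hsum,
    by linear_combination (z - 1) * hsum⟩
  let e1 : (𝓞 K)ˣ := ⟨(1) + (1) * z ^ 2 + (1) * z ^ 3,
    (1) * z ^ 2 + (1) * z ^ 3,
    by linear_combination ((-1) + (1) * z + (1) * z ^ 2) * hsum,
    by linear_combination ((-1) + (1) * z + (1) * z ^ 2) * hsum⟩
  refine Fermat.Agent.S11.kummerLemma_of_filtration (by norm_num) hζ 2 (by norm_num)
    ![e0, e1] ![1, 2] ?_ ?_ ?_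
    ![1, -2] ![1, -2] ?_ ?_
  · unfold StrictMono; decide
  · decide
  · decide
  · decide
  · intro i
    fin_cases i
    · show (z - 1) ^ (1 + 1) ∣ z - ((1 : ℤ) : 𝓞 K) * (1 + ((1 : ℤ) : 𝓞 K) * (z - 1) ^ 1)
      exact ⟨0, by push_cast; ring⟩
    · show (z - 1) ^ (2 + 1) ∣ ((1) + (1) * z ^ 2 + (1) * z ^ 3) -
        ((-2 : ℤ) : 𝓞 K) * (1 + ((-2 : ℤ) : 𝓞 K) * (z - 1) ^ 2)
      exact ⟨(3) + (2) * z + (1) * z ^ 2,
        by push_cast; linear_combination ((2) + (-1) * z) * hsum⟩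

end Fermat.Agent.S10
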