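import Fermat.Agent.S11.KummerFiltration

open NumberField

namespace Fermat.Agent.S10

theorem kummerLemma_seven (K : Type*) [Field K] [NumberField K]
    [IsCyclotomicExtension {7} ℚ K] : Fermat.Agent.S11.KummerLemma 7 K := by
  have : Fact (Nat.Prime 7) := ⟨by norm_num⟩
  have hζ := IsCyclotomicExtension.zeta_spec 7 ℚ K
  set z := hζ.toInteger with hz
  have hsum : 1 + z + z ^ 2 + z ^ 3 + z ^ 4 + z ^ 5 + z ^ 6 = 0 := by
    have h := hζ.toInteger_isPrimitiveRoot.geom_sum_eq_zero (by norm_num : 1 < 7)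
    simpa [Finset.sum_range_succ] using h
  let e0 : (𝓞 K)ˣ := ⟨z, z ^ 6, by linear_combination (z - 1) * hsum,
    by linear_combination (z - 1) * hsum⟩
  let e1 : (𝓞 K)ˣ := ⟨(-1) + (-1) * z ^ 2 + (-1) * z ^ 5,
    (1) * z ^ 3 + (1) * z ^ 4,
    by linear_combination ((-1) + (1) * z + (-1) * z ^ 3) * hsum,
    by linear_combination ((-1) + (1) * z + (-1) * z ^ 3) * hsum⟩
  let e2 : (𝓞 K)ˣ := ⟨(-3) + (-3) * z ^ 2 + (-1) * z ^ 3 + (-1) * z ^ 4 + (-3) * z ^ 5,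
    (1) + (-2) * z ^ 2 + (-3) * z ^ 3 + (-3) * z ^ 4 + (-2) * z ^ 5,
    by linear_combination ((-4) + (4) * z + (3) * z ^ 2 + (5) * z ^ 3 + (6) * z ^ 4) * hsum,
    by linear_combination ((-4) + (4) * z + (3) * z ^ 2 + (5) * z ^ 3 + (6) * z ^ 4) * hsum⟩
  refine Fermat.Agent.S11.kummerLemma_of_filtration (by norm_num) hζ 3 (by norm_num)
    ![e0, e1, e2] ![1, 2, 4] ?_ ?_ ?_
    ![1, -3, 3] ![1, -1, -3] ?_ ?_
  · unfold StrictMono; decide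
  · decide
  · decide
  · decide
  · intro i
    fin_cases i
    · show (z - 1) ^ (1 + 1) ∣ z - ((1 : ℤ) : 𝓞 K) * (1 + ((1 : ℤ) : 𝓞 K) * (z - 1) ^ 1)
      exact ⟨0, by push_cast; ring⟩
    · show (z - 1) ^ (2 + 1) ∣ ((-1) + (-1) * z ^ 2 + (-1) * z ^ 5) -
        ((-3 : ℤ) : 𝓞 K) * (1 + ((-1 : ℤ) : 𝓞 K) * (z - 1) ^ 2)
      exact ⟨(3) + (2) * z + (1) * z ^ 2 + (-1) * z ^ 4 + (-1) * z ^ 5,
        by push_cast; linear_combination ((2) + (-3) * z + (1) * z ^ 2) * hsum⟩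
    · show (z - 1) ^ (4 + 1) ∣ ((-3) + (-3) * z ^ 2 + (-1) * z ^ 3 + (-1) * z ^ 4 + (-3) * z ^ 5) -
        ((3 : ℤ) : 𝓞 K) * (1 + ((-3 : ℤ) : 𝓞 K) * (z - 1) ^ 4)
      exact ⟨(-8) + (-8) * z + (-8) * z ^ 2 + (-7) * z ^ 3 + (-5) * z ^ 4 + (-2) * z ^ 5,
        by push_cast; linear_combination ((-5) + (1) * z + (7) * z ^ 2 + (-7) * z ^ 3 + (2) * z ^ 4) * hsum⟩

end Fermat.Agent.S10
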