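import Mathlib
import Fermat.Prelude.Def_FLTPrelim_FreyPackage

namespace Fermat.Agent.S10

/-- Generic wiring: case I and case II for the exponent `p` exclude Frey packages with `P.p = p`. -/
theorem freyPackage_false_of {p : ℕ} (hodd : Odd p)
    (hI : ∀ {a b c : ℤ}, IsCoprime a b → a ^ p + b ^ p + c ^ p = 0 → (p : ℤ) ∣ a * b * c)
    (hII : ∀ {a b c : ℤ}, IsCoprime a b → (p : ℤ) ∣ c → c ≠ 0 → a ^ p + b ^ p ≠ c ^ p)
    (hpp : p.Prime) (P : FreyPackage) (hP : P.p = p) : False := by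
  have hFLT : P.a ^ p + P.b ^ p = P.c ^ p := hP ▸ P.hFLT
  have cop : ∀ {x y : ℤ}, gcd x y = 1 → IsCoprime x y := by
    intro x y h
    rw [Int.isCoprime_iff_gcd_eq_one]
    have : ((Int.gcd x y : ℕ) : ℤ) = 1 := by rw [Int.coe_gcd]; exact h
    exact_mod_cast this
  have hab : IsCoprime P.a P.b := cop P.hgcdab
  have hac : IsCoprime P.a P.c := cop P.hgcdac
  have hbc : IsCoprime P.b P.c := cop P.hgcdbc
  have h1 : (p : ℤ) ∣ P.a * P.b * (-P.c) := by
    apply hI hab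
    rw [hodd.neg_pow, hFLT]; ring
  have hpZ : Prime (p : ℤ) := Nat.prime_iff_prime_int.mp hpp
  rw [mul_neg, dvd_neg] at h1
  rcases hpZ.dvd_or_dvd h1 with h2 | h2
  · rcases hpZ.dvd_or_dvd h2 with h3 | h3
    · refine hII (a := P.c) (b := -P.b) hbc.symm.neg_right h3 P.ha0 ?_
      rw [hodd.neg_pow, ← hFLT]; ring
    · refine hII (a := P.c) (b := -P.a) hac.symm.neg_right h3 P.hb0 ?_
      rw [hodd.neg_pow, ← hFLT]; ring
  · exact hII hab h2 P.hc0 hFLT

end Fermat.Agent.S10
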