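import Fermat.Agent.S10.PIDTools

open NumberField Polynomial Ideal Module InfinitePlace
open scoped Real Nat

namespace Fermat.Agent.S10

theorem minkowski_thirteen (K : Type*) [Field K] [NumberField K]
    [IsCyclotomicExtension {13} ℚ K] :
    (4 / π) ^ nrComplexPlaces K *
      ((finrank ℚ K)! / (finrank ℚ K) ^ (finrank ℚ K) * √|discr K|) < (306 : ℕ) + 1 := by
  have : Fact (Nat.Prime 13) := ⟨by norm_num⟩
  rw [IsCyclotomicExtension.Rat.discr_prime 13 K, IsCyclotomicExtension.finrank (n := 13) K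
    (cyclotomic.irreducible_rat (by simp)),
    IsCyclotomicExtension.Rat.nrComplexPlaces_eq_totient_div_two 13,
    Nat.totient_prime (by norm_num : Nat.Prime 13)]
  have h1 : (4 / π) < 4 / 3.1415 := by
    have := Real.pi_gt_d4
    gcongr
  have h2 : √|(((-1) ^ ((13 - 1) / 2) * (13 : ℕ) ^ (13 - 2) : ℤ) : ℝ)| < 1338716 := by
    rw [Real.sqrt_lt' (by norm_num)]
    norm_num
  have h3 : (4 / π) ^ ((13 - 1) / 2) < (4 / 3.1415) ^ ((13 - 1) / 2) := by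
    have : (0:ℝ) < 4 / π := by positivity
    gcongr
  calc _ < (4 / 3.1415) ^ ((13 - 1) / 2) *
        (((13 - 1 : ℕ)! : ℝ) / ((13 - 1 : ℕ) : ℝ) ^ (13 - 1) * 1338716) := by
        gcongr
    _ < _ := by
        norm_num [Nat.factorial]

theorem aux13 : ∀ p ∈ Finset.range 307, ∀ f ∈ Finset.range 9, 0 < f → p ^ f ≤ 306 →
    p ^ f % 13 = 1 →
    (p = 3 ∨ p = 53 ∨ p = 79 ∨ p = 131 ∨ p = 157 ∨ p ≤ 1 ∨
      ∃ d ∈ Finset.range 18, 2 ≤ d ∧ d < p ∧ p % d = 0) := by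
  decide +kernel

theorem zeta13_sum (K : Type*) [Field K] [NumberField K] [IsCyclotomicExtension {13} ℚ K]
    (ζ : 𝓞 K) (hζ : ζ = (IsCyclotomicExtension.zeta_spec 13 ℚ K).toInteger) :
    1 + ζ + ζ ^ 2 + ζ ^ 3 + ζ ^ 4 + ζ ^ 5 + ζ ^ 6 + ζ ^ 7 + ζ ^ 8 + ζ ^ 9 + ζ ^ 10 + ζ ^ 11
      + ζ ^ 12 = 0 := by
  have := (IsCyclotomicExtension.zeta_spec 13 ℚ K).toInteger_isPrimitiveRoot.geom_sum_eq_zero
    (by norm_num)
  rw [hζ]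
  simpa [Finset.sum_range_succ] using this

theorem noroot3 : ∀ x : ZMod 3, ¬ x ^ 3 - x - 1 = 0 := by decide

theorem prime13_3 (K : Type*) [Field K] [NumberField K] [IsCyclotomicExtension {13} ℚ K] :
    ∃ P ∈ primesOver (span {((3 : ℕ) : ℤ)}) (𝓞 K), Submodule.IsPrincipal P := by
  have : Fact (Nat.Prime 13) := ⟨by norm_num⟩
  have : Fact (Nat.Prime 3) := ⟨by norm_num⟩
  set ζ := (IsCyclotomicExtension.zeta_spec 13 ℚ K).toInteger with hζdef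
  have hΦ := zeta13_sum K ζ hζdef
  have hmap : (X ^ 3 - X - 1 : ℤ[X]).map (Int.castRingHom (ZMod 3)) = X ^ 3 - X - 1 := by
    simp
  have hae : aeval ζ (X ^ 3 - X - 1 : ℤ[X]) = ζ ^ 3 - ζ - 1 := by
    simp
  refine exists_principal_prime (n := 13) K 3 (X ^ 3 - X - 1) ?_ ?_ ?_ (1 + ζ - ζ ^ 3) ?_ ?_ ?_
  · rw [hmap]
    apply irreducible_of_degree_le_three_of_not_isRoot
    · have : (X ^ 3 - X - 1 : (ZMod 3)[X]).natDegree = 3 := by compute_degree!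
      rw [this]; decide
    · intro x
      simp only [IsRoot.def, eval_sub, eval_pow, eval_X, eval_one]
      exact noroot3 x
  · monicity!
  · apply map_dvd_cyclotomic_of_eq (n := 13) (p := 3) _
      (-1 - X ^ 2 - X ^ 3 + X ^ 5 - X ^ 7 + X ^ 8 + X ^ 9) (X ^ 5 + X ^ 6 + X ^ 9 + X ^ 10)
    simp only [Finset.sum_range_succ, Finset.sum_range_zero]
    push_cast
    ring
  · refine ⟨-1 - ζ ^ 2 - ζ ^ 3 - 2 * ζ ^ 5 - ζ ^ 7 - 2 * ζ ^ 8 + ζ ^ 9 - 3 * ζ ^ 10, ?_⟩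
    push_cast
    linear_combination (-(-4 + 3 * ζ)) * hΦ
  · rw [hae]
    exact ⟨-1, by ring⟩
  · rw [hae, Ideal.mem_span_pair]
    exact ⟨0, -1, by ring⟩

theorem prime13_53 (K : Type*) [Field K] [NumberField K] [IsCyclotomicExtension {13} ℚ K] :
    ∃ P ∈ primesOver (span {((53 : ℕ) : ℤ)}) (𝓞 K), Submodule.IsPrincipal P := by
  have : Fact (Nat.Prime 13) := ⟨by norm_num⟩
  have : Fact (Nat.Prime 53) := ⟨by norm_num⟩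
  set ζ := (IsCyclotomicExtension.zeta_spec 13 ℚ K).toInteger with hζdef
  have hΦ := zeta13_sum K ζ hζdef
  refine exists_principal_prime_deg_one (n := 13) K 53 16 (by decide +kernel)
    (1 - ζ + ζ ^ 3) ?_ ?_ ?_
  · refine ⟨25 + 10 * ζ + 19 * ζ ^ 2 + 3 * ζ ^ 3 + 2 * ζ ^ 4 - 8 * ζ ^ 5 - 2 * ζ ^ 6 + 5 * ζ ^ 7 + 22 * ζ ^ 8 + 33 * ζ ^ 9 + 37 * ζ ^ 10 + 24 * ζ ^ 11, ?_⟩
    push_cast
    linear_combination (-(-28 + 13 * ζ + 24 * ζ ^ 2)) * hΦ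
  · refine ⟨-8 - 3 * ζ - 6 * ζ ^ 2 - ζ ^ 3 - ζ ^ 4 + 2 * ζ ^ 5 - 2 * ζ ^ 7 - 7 * ζ ^ 8 - 10 * ζ ^ 9 - 11 * ζ ^ 10 - 7 * ζ ^ 11, ?_⟩
    push_cast
    linear_combination (-(8 - 4 * ζ - 7 * ζ ^ 2)) * hΦ
  · refine ⟨77, 255 + 16 * ζ + ζ ^ 2, ?_⟩
    push_cast
    ring

theorem prime13_79 (K : Type*) [Field K] [NumberField K] [IsCyclotomicExtension {13} ℚ K] :
    ∃ P ∈ primesOver (span {((79 : ℕ) : ℤ)}) (𝓞 K), Submodule.IsPrincipal P := by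
  have : Fact (Nat.Prime 13) := ⟨by norm_num⟩
  have : Fact (Nat.Prime 79) := ⟨by norm_num⟩
  set ζ := (IsCyclotomicExtension.zeta_spec 13 ℚ K).toInteger with hζdef
  have hΦ := zeta13_sum K ζ hζdef
  refine exists_principal_prime_deg_one (n := 13) K 79 62 (by decide +kernel)
    (1 - ζ - ζ ^ 4) ?_ ?_ ?_
  · refine ⟨62 + 63 * ζ + 49 * ζ ^ 2 + 8 * ζ ^ 3 + 29 * ζ ^ 4 + 51 * ζ ^ 5 + 59 * ζ ^ 6 + 26 * ζ ^ 7 + 14 * ζ ^ 8 + 24 * ζ ^ 9 + 42 * ζ ^ 10 + 27 * ζ ^ 11, ?_⟩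
    push_cast
    linear_combination (-(-17 + 18 * ζ - 15 * ζ ^ 2 - 27 * ζ ^ 3)) * hΦ
  · refine ⟨-49 - 49 * ζ - 38 * ζ ^ 2 - 6 * ζ ^ 3 - 23 * ζ ^ 4 - 40 * ζ ^ 5 - 46 * ζ ^ 6 - 20 * ζ ^ 7 - 11 * ζ ^ 8 - 19 * ζ ^ 9 - 33 * ζ ^ 10 - 21 * ζ ^ 11, ?_⟩
    push_cast
    linear_combination (-(13 - 14 * ζ + 12 * ζ ^ 2 + 21 * ζ ^ 3)) * hΦ
  · refine ⟨-187043, -238329 - 3844 * ζ - 62 * ζ ^ 2 - ζ ^ 3, ?_⟩
    push_cast
    ring

theorem prime13_131 (K : Type*) [Field K] [NumberField K] [IsCyclotomicExtension {13} ℚ K] :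
    ∃ P ∈ primesOver (span {((131 : ℕ) : ℤ)}) (𝓞 K), Submodule.IsPrincipal P := by
  have : Fact (Nat.Prime 13) := ⟨by norm_num⟩
  have : Fact (Nat.Prime 131) := ⟨by norm_num⟩
  set ζ := (IsCyclotomicExtension.zeta_spec 13 ℚ K).toInteger with hζdef
  have hΦ := zeta13_sum K ζ hζdef
  refine exists_principal_prime_deg_one (n := 13) K 131 80 (by decide +kernel)
    (1 - ζ - ζ ^ 3) ?_ ?_ ?_
  · refine ⟨111 + 78 * ζ + 17 * ζ ^ 2 + 67 * ζ ^ 3 + 84 * ζ ^ 4 + 40 * ζ ^ 5 + 46 * ζ ^ 6 + 69 * ζ ^ 7 + 48 * ζ ^ 8 + 33 * ζ ^ 9 + 41 * ζ ^ 10 + 28 * ζ ^ 11, ?_⟩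
    push_cast
    linear_combination (-(-20 - 13 * ζ - 28 * ζ ^ 2)) * hΦ
  · refine ⟨-68 - 47 * ζ - 10 * ζ ^ 2 - 41 * ζ ^ 3 - 51 * ζ ^ 4 - 24 * ζ ^ 5 - 28 * ζ ^ 6 - 42 * ζ ^ 7 - 29 * ζ ^ 8 - 20 * ζ ^ 9 - 25 * ζ ^ 10 - 17 * ζ ^ 11, ?_⟩
    push_cast
    linear_combination (-(12 + 8 * ζ + 17 * ζ ^ 2)) * hΦ
  · refine ⟨-3909, -6401 - 80 * ζ - ζ ^ 2, ?_⟩
    push_cast
    ring

theorem prime13_157 (K : Type*) [Field K] [NumberField K] [IsCyclotomicExtension {13} ℚ K] :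
    ∃ P ∈ primesOver (span {((157 : ℕ) : ℤ)}) (𝓞 K), Submodule.IsPrincipal P := by
  have : Fact (Nat.Prime 13) := ⟨by norm_num⟩
  have : Fact (Nat.Prime 157) := ⟨by norm_num⟩
  set ζ := (IsCyclotomicExtension.zeta_spec 13 ℚ K).toInteger with hζdef
  have hΦ := zeta13_sum K ζ hζdef
  refine exists_principal_prime_deg_one (n := 13) K 157 75 (by decide +kernel)
    (1 - ζ + ζ ^ 2 + ζ ^ 4) ?_ ?_ ?_
  · refine ⟨89 + 86 * ζ + 42 * ζ ^ 2 + 77 * ζ ^ 3 + 67 * ζ ^ 4 + 25 * ζ ^ 5 + 37 * ζ ^ 6 + 56 * ζ ^ 7 + 73 * ζ ^ 8 + 113 * ζ ^ 9 + 124 * ζ ^ 10 + 76 * ζ ^ 11, ?_⟩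
    push_cast
    linear_combination (-(-68 + 65 * ζ + 48 * ζ ^ 2 + 76 * ζ ^ 3)) * hΦ
  · refine ⟨-43 - 41 * ζ - 20 * ζ ^ 2 - 37 * ζ ^ 3 - 32 * ζ ^ 4 - 12 * ζ ^ 5 - 18 * ζ ^ 6 - 27 * ζ ^ 7 - 35 * ζ ^ 8 - 54 * ζ ^ 9 - 59 * ζ ^ 10 - 36 * ζ ^ 11, ?_⟩
    push_cast
    linear_combination (-(32 - 31 * ζ - 23 * ζ ^ 2 - 36 * ζ ^ 3)) * hΦ
  · refine ⟨201568, 421949 + 5626 * ζ + 75 * ζ ^ 2 + ζ ^ 3, ?_⟩
    push_cast
    ring

/-- The ring of integers of the 13-th cyclotomic field is a PID. -/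
theorem pid_thirteen (K : Type*) [Field K] [NumberField K] [IsCyclotomicExtension {13} ℚ K] :
    IsPrincipalIdealRing (𝓞 K) := by
  have : Fact (Nat.Prime 13) := ⟨by norm_num⟩
  refine pid_of_bound (n := 13) K 306 (minkowski_thirteen K) (fun p hpB hp ↦ ?_)
  by_cases h13 : p = 13
  · subst h13
    exact Or.inr (exists_principal_prime_self K)
  have hpn : ¬ p ∣ 13 := by
    intro h
    exact h13 ((Nat.prime_dvd_prime_iff_eq hp (by norm_num)).mp h)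
  by_cases hlt : 306 < p ^ orderOf (p : ZMod 13)
  · exact Or.inl ⟨hpn, hlt⟩
  right
  obtain ⟨f, hf, hf0, hle, hmod⟩ :=
    order_bound (n := 13) (B := 306) (k := 9) (by norm_num) (by norm_num) hp hpn hlt
  rcases aux13 p (Finset.mem_range.mpr (by omega)) f hf hf0 hle hmod with
    rfl | rfl | rfl | rfl | rfl | h | ⟨d, -, hd2, hdp, hd⟩
  · exact prime13_3 K
  · exact prime13_53 K
  · exact prime13_79 K
  · exact prime13_131 K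
  · exact prime13_157 K
  · exact absurd hp.two_le (by omega)
  · exfalso
    have hdvd : d ∣ p := Nat.dvd_of_mod_eq_zero hd
    rcases (Nat.dvd_prime hp).mp hdvd with h | h <;> omega

end Fermat.Agent.S10
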