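import Fermat.Agent.S10.PIDTools

open NumberField Polynomial Ideal Module InfinitePlace
open scoped Real Nat

namespace Fermat.Agent.S10

theorem minkowski_seven (K : Type*) [Field K] [NumberField K]
    [IsCyclotomicExtension {7} ℚ K] :
    (4 / π) ^ nrComplexPlaces K *
      ((finrank ℚ K)! / (finrank ℚ K) ^ (finrank ℚ K) * √|discr K|) < (4 : ℕ) + 1 := by
  have : Fact (Nat.Prime 7) := ⟨by norm_num⟩
  rw [IsCyclotomicExtension.Rat.discr_prime 7 K, IsCyclotomicExtension.finrank (n := 7) K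
    (cyclotomic.irreducible_rat (by simp)),
    IsCyclotomicExtension.Rat.nrComplexPlaces_eq_totient_div_two 7,
    Nat.totient_prime (by norm_num : Nat.Prime 7)]
  have h1 : (4 / π) < 4 / 3.1415 := by
    have := Real.pi_gt_d4
    gcongr
  have h2 : √|(((-1) ^ ((7 - 1) / 2) * (7 : ℕ) ^ (7 - 2) : ℤ) : ℝ)| < 130 := by
    rw [Real.sqrt_lt' (by norm_num)]
    norm_num
  have h3 : (4 / π) ^ ((7 - 1) / 2) < (4 / 3.1415) ^ ((7 - 1) / 2) := by
    have : (0:ℝ) < 4 / π := by positivity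
    gcongr
  calc _ < (4 / 3.1415) ^ ((7 - 1) / 2) *
        (((7 - 1 : ℕ)! : ℝ) / ((7 - 1 : ℕ) : ℝ) ^ (7 - 1) * 130) := by
        gcongr
    _ < _ := by
        norm_num [Nat.factorial]

theorem aux7 : ∀ p ∈ Finset.range 5, ∀ f ∈ Finset.range 3, 0 < f → p ^ f ≤ 4 →
    p ^ f % 7 = 1 → p ≤ 1 := by
  decide +kernel

/-- The ring of integers of the 7-th cyclotomic field is a PID. -/
theorem pid_seven (K : Type*) [Field K] [NumberField K] [IsCyclotomicExtension {7} ℚ K] :
    IsPrincipalIdealRing (𝓞 K) := by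
  have : Fact (Nat.Prime 7) := ⟨by norm_num⟩
  refine pid_of_bound (n := 7) K 4 (minkowski_seven K) (fun p hpB hp ↦ ?_)
  have hpn : ¬ p ∣ 7 := by
    intro h
    have := (Nat.prime_dvd_prime_iff_eq hp (by norm_num)).mp h
    omega
  by_cases hlt : 4 < p ^ orderOf (p : ZMod 7)
  · exact Or.inl ⟨hpn, hlt⟩
  exfalso
  obtain ⟨f, hf, hf0, hle, hmod⟩ :=
    order_bound (n := 7) (B := 4) (k := 3) (by norm_num) (by norm_num) hp hpn hlt
  have := aux7 p (Finset.mem_range.mpr (by omega)) f hf hf0 hle hmod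
  exact absurd hp.two_le (by omega)

end Fermat.Agent.S10
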