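import Mathlib

open NumberField Polynomial Ideal Module InfinitePlace
open scoped Real Nat

namespace Fermat.Agent.S10

/-- Minkowski-bound criterion specialised to cyclotomic fields. -/
theorem pid_of_bound {n : ℕ} [NeZero n] (K : Type*) [Field K] [NumberField K]
    [IsCyclotomicExtension {n} ℚ K] (B : ℕ)
    (hB : (4 / π) ^ nrComplexPlaces K *
      ((finrank ℚ K)! / (finrank ℚ K) ^ (finrank ℚ K) * √|discr K|) < B + 1)
    (h : ∀ p ≤ B, p.Prime → (¬ p ∣ n ∧ B < p ^ orderOf (p : ZMod n)) ∨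
      ∃ P ∈ primesOver (span {(p : ℤ)}) (𝓞 K), Submodule.IsPrincipal P) :
    IsPrincipalIdealRing (𝓞 K) := by
  have : IsGalois ℚ K := IsCyclotomicExtension.isGalois {n} ℚ K
  have hfl : ⌊(4 / π) ^ nrComplexPlaces K *
      ((finrank ℚ K)! / (finrank ℚ K) ^ (finrank ℚ K) * √|discr K|)⌋₊ ≤ B := by
    rw [← Nat.lt_succ_iff]
    apply (Nat.floor_lt' (Nat.succ_ne_zero B)).mpr
    simpa using hB
  refine RingOfIntegers.isPrincipalIdealRing_of_isPrincipal_of_lt_or_isPrincipal_of_mem_primesOver_of_mem_Icc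
    (fun p hp hpp ↦ ?_)
  have hpB : p ≤ B := (Finset.mem_Icc.mp hp).2.trans hfl
  rcases h p hpB hpp with ⟨hn, hlt⟩ | ⟨P, hP, hPP⟩
  · have : Fact p.Prime := ⟨hpp⟩
    obtain ⟨⟨P, hP1, hP2⟩⟩ := (span {(p : ℤ)}).nonempty_primesOver (S := 𝓞 K)
    refine ⟨P, ⟨hP1, hP2⟩, Or.inl ?_⟩
    rw [IsCyclotomicExtension.Rat.inertiaDeg_eq_of_not_dvd p K P hn]
    exact lt_of_le_of_lt hfl hlt
  · exact ⟨P, hP, Or.inr hPP⟩

/-- If `p ^ orderOf p` does not exceed the bound, we get a small exponent `f` with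
`p ^ f ≡ 1 mod n`. -/
theorem order_bound {n B k : ℕ} (hn : 1 < n) (hk : B < 2 ^ k) {p : ℕ} (hp : p.Prime)
    (hpn : ¬ p ∣ n) (h : ¬ B < p ^ orderOf (p : ZMod n)) :
    ∃ f ∈ Finset.range k, 0 < f ∧ p ^ f ≤ B ∧ p ^ f % n = 1 := by
  have hcop : p.Coprime n := (Nat.Prime.coprime_iff_not_dvd hp).mpr hpn
  have : NeZero n := ⟨by omega⟩
  have : Fact (1 < n) := ⟨hn⟩
  refine ⟨orderOf (p : ZMod n), ?_, ?_, not_lt.mp h, ?_⟩
  · rw [Finset.mem_range]
    by_contra hlt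
    rw [not_lt] at hlt
    apply h
    calc B < 2 ^ k := hk
      _ ≤ 2 ^ orderOf (p : ZMod n) := Nat.pow_le_pow_right (by norm_num) hlt
      _ ≤ p ^ orderOf (p : ZMod n) := Nat.pow_le_pow_left hp.two_le _
  · have : IsUnit (p : ZMod n) := (ZMod.isUnit_iff_coprime p n).mpr hcop
    obtain ⟨u, hu⟩ := this
    rw [← hu, orderOf_units]
    exact orderOf_pos u
  · have h1 : ((p ^ orderOf (p : ZMod n) : ℕ) : ZMod n) = ((1 : ℕ) : ZMod n) := by
      push_cast
      exact pow_orderOf_eq_one _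
    rw [ZMod.natCast_eq_natCast_iff'] at h1
    rw [h1, Nat.mod_eq_of_lt hn]

/-- Kummer-Dedekind: a principal prime above `p` from explicit divisibility witnesses. -/
theorem exists_principal_prime {n : ℕ} [NeZero n] (K : Type*) [Field K] [NumberField K]
    [IsCyclotomicExtension {n} ℚ K] (p : ℕ) [Fact p.Prime] (Q : ℤ[X])
    (hQirr : Irreducible (Q.map (Int.castRingHom (ZMod p))))
    (hQmonic : Q.Monic)
    (hQdvd : Q.map (Int.castRingHom (ZMod p)) ∣ cyclotomic n (ZMod p))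
    (α : 𝓞 K) (h1 : α ∣ (p : 𝓞 K))
    (h2 : α ∣ aeval (IsCyclotomicExtension.zeta_spec n ℚ K).toInteger Q)
    (h3 : α ∈ span {(p : 𝓞 K), aeval (IsCyclotomicExtension.zeta_spec n ℚ K).toInteger Q}) :
    ∃ P ∈ primesOver (span {(p : ℤ)}) (𝓞 K), Submodule.IsPrincipal P := by
  set ζ := (IsCyclotomicExtension.zeta_spec n ℚ K).toInteger with hζ
  have h₁ : ¬ p ∣ RingOfIntegers.exponent ζ := by
    rw [RingOfIntegers.exponent_eq_one_iff.mpr <|
      IsCyclotomicExtension.Rat.adjoin_singleton_eq_top (IsCyclotomicExtension.zeta_spec n ℚ K)]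
    exact (Fact.out : p.Prime).not_dvd_one
  have hmin : minpoly ℤ ζ = cyclotomic n ℤ := by
    rw [cyclotomic_eq_minpoly (IsCyclotomicExtension.zeta_spec n ℚ K) (NeZero.pos _),
      ← (IsCyclotomicExtension.zeta_spec n ℚ K).coe_toInteger, ← RingOfIntegers.minpoly_coe ζ]
    rfl
  have hQ : Q.map (Int.castRingHom (ZMod p)) ∈ RingOfIntegers.monicFactorsMod ζ p := by
    rw [Multiset.mem_toFinset, Polynomial.mem_normalizedFactors_iff
      (map_monic_ne_zero (minpoly.monic ζ.isIntegral))]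
    refine ⟨hQirr, hQmonic.map _, ?_⟩
    rw [hmin, map_cyclotomic_int]
    exact hQdvd
  have hspan := NumberField.Ideal.primesOverSpanEquivMonicFactorsMod_symm_apply_eq_span h₁ hQ
  refine ⟨_, ((NumberField.Ideal.primesOverSpanEquivMonicFactorsMod h₁).symm ⟨_, hQ⟩).2, ?_⟩
  rw [hspan]
  refine ⟨α, le_antisymm ?_ ?_⟩
  · rw [Ideal.span_le]
    rintro x (rfl | rfl)
    · exact Ideal.mem_span_singleton.mpr h1
    · exact Ideal.mem_span_singleton.mpr h2
  · rw [Ideal.submodule_span_eq, Ideal.span_singleton_le_iff_mem]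
    exact h3

/-- Degree one version of `exists_principal_prime`. -/
theorem exists_principal_prime_deg_one {n : ℕ} [hn : Fact n.Prime] (K : Type*) [Field K]
    [NumberField K] [IsCyclotomicExtension {n} ℚ K] (p : ℕ) [Fact p.Prime] (r : ℤ)
    (hr : (p : ℤ) ∣ ∑ i ∈ Finset.range n, r ^ i)
    (α : 𝓞 K) (h1 : α ∣ (p : 𝓞 K))
    (h2 : α ∣ (IsCyclotomicExtension.zeta_spec n ℚ K).toInteger - (r : 𝓞 K))
    (h3 : ∃ u v : 𝓞 K, α = p * u +
      ((IsCyclotomicExtension.zeta_spec n ℚ K).toInteger - (r : 𝓞 K)) * v) :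
    ∃ P ∈ primesOver (span {(p : ℤ)}) (𝓞 K), Submodule.IsPrincipal P := by
  have : NeZero n := ⟨hn.out.ne_zero⟩
  have hmap : (X - C r : ℤ[X]).map (Int.castRingHom (ZMod p)) = X - C (r : ZMod p) := by
    simp
  have hae : aeval (IsCyclotomicExtension.zeta_spec n ℚ K).toInteger (X - C r : ℤ[X]) =
      (IsCyclotomicExtension.zeta_spec n ℚ K).toInteger - (r : 𝓞 K) := by
    simp
  refine exists_principal_prime (n := n) K p (X - C r) ?_ (monic_X_sub_C r) ?_ α h1 ?_ ?_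
  · rw [hmap]; exact irreducible_X_sub_C _
  · rw [hmap, dvd_iff_isRoot, cyclotomic_prime, IsRoot.def, eval_finsetSum]
    have := (ZMod.intCast_zmod_eq_zero_iff_dvd _ p).mpr hr
    simpa using this
  · rw [hae]; exact h2
  · rw [hae, Ideal.mem_span_pair]
    obtain ⟨u, v, huv⟩ := h3
    exact ⟨u, v, by rw [huv]; ring⟩

theorem map_dvd_cyclotomic_of_eq {n p : ℕ} [Fact n.Prime] (Q Q' R : ℤ[X])
    (h : ∑ i ∈ Finset.range n, (X : ℤ[X]) ^ i = Q * Q' + (p : ℤ[X]) * R) :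
    Q.map (Int.castRingHom (ZMod p)) ∣ cyclotomic n (ZMod p) := by
  rw [← map_cyclotomic_int, cyclotomic_prime, h, Polynomial.map_add, Polynomial.map_mul,
    Polynomial.map_mul, Polynomial.map_natCast, CharP.cast_eq_zero, zero_mul, add_zero]
  exact dvd_mul_right _ _

/-- The ramified prime `(ζ - 1)` above `n` is principal. -/
theorem exists_principal_prime_self {n : ℕ} [hn : Fact n.Prime] (K : Type*) [Field K]
    [NumberField K] [IsCyclotomicExtension {n} ℚ K] :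
    ∃ P ∈ primesOver (span {(n : ℤ)}) (𝓞 K), Submodule.IsPrincipal P := by
  have hζ := IsCyclotomicExtension.zeta_spec n ℚ K
  refine ⟨span {hζ.toInteger - 1},
    ⟨IsCyclotomicExtension.Rat.isPrime_span_zeta_sub_one' n hζ, ?_⟩, ⟨_, rfl⟩⟩
  have hK : IsCyclotomicExtension {n ^ (0 + 1)} ℚ K := by simpa using ‹IsCyclotomicExtension {n} ℚ K›
  have hζ' : IsPrimitiveRoot (IsCyclotomicExtension.zeta n ℚ K) (n ^ (0 + 1)) := by simpa using hζ
  exact IsCyclotomicExtension.Rat.liesOver_span_zeta_sub_one n 0 hζ'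

end Fermat.Agent.S10
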